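import Fermat.Agent.M59.Top.EngSeams
import Fermat.Agent.S58.Top.Compare
import Fermat.Agent.S58.Tate

/-!
M59 / block [G5] (owner helper29; ruling #48, master table #5259).  Prefix `m59g_`.

LEVEL 2 CUT of `m59e_G5_stmt` (`ρ_W = T_p(W) ⊗ 𝒪` with its local types) and its wiring.

The Tate module `ρW : GaloisRepAdic ℤ_[p]` with its level maps `π n : ρW.V →+ W(ℚ̄)` onto
`W(ℚ̄)[pⁿ]` is the one of main (`s58t_tateSeam`, packaged as `s58top_IsTate W p ρW π`); the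
coefficient ring `𝒪` is a complete DVR of characteristic `0`, UNRAMIFIED over `ℤ_p`
(`maximalIdeal 𝒪 = (p)`), with finite residue field in which every quadratic with coefficients in
the prime field splits; `m59g_rho p 𝒪 hp ρW = ρW ⊗_{ℤ_p} 𝒪`.

Seams (every one is a statement about `m59g_rho p 𝒪 hp ρW` for ALL `(ρW, π)` with
`s58top_IsTate W p ρW π` and ALL such `𝒪`):

* `m59g_Coeff_stmt`  [COEFF]   the ring `𝒪` exists (Witt vectors of `𝔽_{p²}`).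
* `m59g_Away_stmt`   (G5-away) `det`, `unram`, `frob`, `frobRes`, `unip`, `irr`   (helper6).
* `m59g_Flat_stmt`   (G5-flat) good reduction at `p` ⟹ `IsFlatAt p`                (helper29).
* `m59g_Ord_stmt`    (G5-ord)  bad reduction at `p` ⟹ `IsOrdinaryAt p`.
* `m59g_TW_stmt`     (hTW)     `twt_TWHyp ρ̄`, `p ∈ {3, 5}`                          (helper23).
* `m59g_Split_stmt`  (split)   eigenvalues of `ρ̄` in the residue field.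
* `m59g_NonEis_stmt` (nonEis)  some good `ℓ ∉ S` has `a_ℓ ≢ ℓ + 1`.

`m59g_G5_of : … → m59e_G5_stmt` (proved).
-/

set_option autoImplicit false

open Polynomial IsLocalRing WeierstrassCurve Fermat.Agent.TW Fermat.Agent.S58 Fermat.Agent.JT3

namespace Fermat.Agent.M59

/-- `ρ_W ⊗_{ℤ_p} 𝒪`. -/
noncomputable def m59g_rho (p : ℕ) [Fact p.Prime] (𝒪 : Type) [CommRing 𝒪] [IsLocalRing 𝒪]
    [IsAdicComplete (maximalIdeal 𝒪) 𝒪] (hp : (p : 𝒪) ∈ maximalIdeal 𝒪)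
    (ρW : GaloisRepAdic ℤ_[p]) : GaloisRepAdic 𝒪 :=
  ρW.baseChangeAlong (cya_padicHom p 𝒪 hp) (s58top_padicHom_isLocalHom p 𝒪 hp)

/-- every monic quadratic with coefficients in the prime field splits in `k`. -/
def m59g_QuadClosed (k : Type) [Field k] : Prop :=
  ∀ t d : ℤ, ∃ α β : k, (X ^ 2 - C (t : k) * X + C (d : k) : k[X]) = (X - C α) * (X - C β)

/-- **[COEFF]** the coefficient ring. -/
def m59g_Coeff_stmt : Prop :=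
  ∀ (p : ℕ) [Fact p.Prime],
    ∃ (𝒪 : Type) (_ : CommRing 𝒪) (_ : IsDomain 𝒪) (_ : IsDiscreteValuationRing 𝒪)
      (_ : IsAdicComplete (maximalIdeal 𝒪) 𝒪) (_ : Finite (ResidueField 𝒪)) (_ : CharZero 𝒪),
      maximalIdeal 𝒪 = Ideal.span {(p : 𝒪)} ∧ m59g_QuadClosed (ResidueField 𝒪)

/-- the "away from `p`" half of `m59e_IsTate`. -/
structure m59g_IsAway (p : ℕ) (W : WeierstrassCurve ℤ) {𝒪 : Type} [CommRing 𝒪] [IsLocalRing 𝒪]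
    (ρ : GaloisRepAdic 𝒪) : Prop where
  det : ρ.DetIsCyclotomic p
  unram : ∀ ℓ : ℕ, ℓ.Prime → ℓ ≠ p → W.IsGoodPrimeFor ℓ → ρ.IsUnramifiedAt ℓ
  frob : ∀ ℓ : ℕ, ℓ.Prime → ℓ ≠ p → W.IsGoodPrimeFor ℓ →
    ∀ A : ValuationSubring twt_Qb, A.LiesOverPrime ℓ → ∀ σ : twt_G, A.IsFrobeniusAt σ ℓ →
      LinearMap.charpoly (ρ.ρ σ) = X ^ 2 - C (((W.apOfModel ℓ : ℤ) : 𝒪)) * X + C ((ℓ : 𝒪))
  frobRes : ∀ ℓ : ℕ, ℓ.Prime → ℓ ≠ p → W.IsGoodPrimeFor ℓ →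
    ∀ A : ValuationSubring twt_Qb, A.LiesOverPrime ℓ → ∀ σ : twt_G, A.IsFrobeniusAt σ ℓ →
      LinearMap.charpoly (ρ.residual.ρ σ) =
        X ^ 2 - C (((W.apOfModel ℓ : ℤ) : ResidueField 𝒪)) * X + C ((ℓ : ResidueField 𝒪))
  unip : ∀ q : ℕ, q.Prime → q ≠ p → ρ.IsUnipotentOnInertiaAt q
  irr : ρ.residual.IsAbsolutelyIrreducible

/-- **(G5-away)** (helper6). -/
def m59g_Away_stmt : Prop :=
  ∀ (p : ℕ) [Fact p.Prime], p ≠ 2 → ∀ W : WeierstrassCurve ℤ, W.Δ ≠ 0 →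
    W.IsSemistableModel → W.ModRepIsIrreducible p →
  ∀ (ρW : GaloisRepAdic ℤ_[p]) (π : ℕ → ρW.V →+ s58_E W), s58top_IsTate W p ρW π →
  ∀ (𝒪 : Type) [CommRing 𝒪] [IsDomain 𝒪] [IsDiscreteValuationRing 𝒪]
    [IsAdicComplete (maximalIdeal 𝒪) 𝒪] [Finite (ResidueField 𝒪)] [CharZero 𝒪]
    (hp : (p : 𝒪) ∈ maximalIdeal 𝒪), m59g_IsAway p W (m59g_rho p 𝒪 hp ρW)

/-- **(G5-flat)** good reduction at `p` ⟹ flat (`𝒪` unramified over `ℤ_p`). -/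
def m59g_Flat_stmt : Prop :=
  ∀ (p : ℕ) [Fact p.Prime], p ≠ 2 → ∀ W : WeierstrassCurve ℤ, W.Δ ≠ 0 → W.IsGoodPrimeFor p →
  ∀ (ρW : GaloisRepAdic ℤ_[p]) (π : ℕ → ρW.V →+ s58_E W), s58top_IsTate W p ρW π →
  ∀ (𝒪 : Type) [CommRing 𝒪] [IsDomain 𝒪] [IsDiscreteValuationRing 𝒪]
    [IsAdicComplete (maximalIdeal 𝒪) 𝒪] [Finite (ResidueField 𝒪)] [CharZero 𝒪]
    (hp : (p : 𝒪) ∈ maximalIdeal 𝒪), maximalIdeal 𝒪 = Ideal.span {(p : 𝒪)} →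
    (m59g_rho p 𝒪 hp ρW).IsFlatAt p

/-- **(G5-ord)** bad (= multiplicative) reduction at `p` ⟹ ordinary. -/
def m59g_Ord_stmt : Prop :=
  ∀ (p : ℕ) [Fact p.Prime], p ≠ 2 → ∀ W : WeierstrassCurve ℤ, W.Δ ≠ 0 →
    W.IsSemistableModel → ¬ W.IsGoodPrimeFor p →
  ∀ (ρW : GaloisRepAdic ℤ_[p]) (π : ℕ → ρW.V →+ s58_E W), s58top_IsTate W p ρW π →
  ∀ (𝒪 : Type) [CommRing 𝒪] [IsDomain 𝒪] [IsDiscreteValuationRing 𝒪]
    [IsAdicComplete (maximalIdeal 𝒪) 𝒪] [Finite (ResidueField 𝒪)] [CharZero 𝒪]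
    (hp : (p : 𝒪) ∈ maximalIdeal 𝒪), (m59g_rho p 𝒪 hp ρW).IsOrdinaryAt p

/-- **(hTW)** the Taylor–Wiles hypothesis for `W[p] ⊗ k`, `p ∈ {3, 5}` (helper23). -/
def m59g_TW_stmt : Prop :=
  ∀ (p : ℕ) [Fact p.Prime], p = 3 ∨ p = 5 → ∀ W : WeierstrassCurve ℤ, W.Δ ≠ 0 →
    W.IsSemistableModel → W.ModRepIsIrreducible p →
  ∀ (ρW : GaloisRepAdic ℤ_[p]) (π : ℕ → ρW.V →+ s58_E W), s58top_IsTate W p ρW π →
  ∀ (𝒪 : Type) [CommRing 𝒪] [IsDomain 𝒪] [IsDiscreteValuationRing 𝒪]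
    [IsAdicComplete (maximalIdeal 𝒪) 𝒪] [Finite (ResidueField 𝒪)] [CharZero 𝒪]
    (hp : (p : 𝒪) ∈ maximalIdeal 𝒪), m59g_IsAway p W (m59g_rho p 𝒪 hp ρW) →
    twt_TWHyp (m59g_rho p 𝒪 hp ρW).residual

/-- **(split)** the eigenvalues of `ρ̄` lie in the residue field. -/
def m59g_Split_stmt : Prop :=
  ∀ (p : ℕ) [Fact p.Prime] (ρW : GaloisRepAdic ℤ_[p])
    (𝒪 : Type) [CommRing 𝒪] [IsDomain 𝒪] [IsDiscreteValuationRing 𝒪]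
    [IsAdicComplete (maximalIdeal 𝒪) 𝒪] (hp : (p : 𝒪) ∈ maximalIdeal 𝒪),
    m59g_QuadClosed (ResidueField 𝒪) →
    ∀ σ : twt_G, ∃ α β : ResidueField 𝒪,
      LinearMap.charpoly ((m59g_rho p 𝒪 hp ρW).residual.ρ σ) = (X - C α) * (X - C β)

/-- **(nonEis)** for every finite `S` some prime `ℓ ∉ S` has `a_ℓ(W) ≢ ℓ + 1`. -/
def m59g_NonEis_stmt : Prop :=
  ∀ (p : ℕ) [Fact p.Prime], p ≠ 2 → ∀ W : WeierstrassCurve ℤ, W.Δ ≠ 0 →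
    W.IsSemistableModel → W.ModRepIsIrreducible p →
  ∀ (ρW : GaloisRepAdic ℤ_[p]) (π : ℕ → ρW.V →+ s58_E W), s58top_IsTate W p ρW π →
  ∀ (𝒪 : Type) [CommRing 𝒪] [IsDomain 𝒪] [IsDiscreteValuationRing 𝒪]
    [IsAdicComplete (maximalIdeal 𝒪) 𝒪] [Finite (ResidueField 𝒪)] [CharZero 𝒪]
    (hp : (p : 𝒪) ∈ maximalIdeal 𝒪), m59g_IsAway p W (m59g_rho p 𝒪 hp ρW) →
    ∀ S : Finset ℕ, ∃ ℓ : ℕ, ℓ.Prime ∧ ℓ ∉ S ∧
      ((W.apOfModel ℓ : ℤ) : ResidueField 𝒪) ≠ (ℓ : ResidueField 𝒪) + 1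

/-- **[G5] from its level-2 cells.** -/
theorem m59g_G5_of (hCo : m59g_Coeff_stmt) (hAw : m59g_Away_stmt) (hFl : m59g_Flat_stmt)
    (hOr : m59g_Ord_stmt) (hTW : m59g_TW_stmt) (hSp : m59g_Split_stmt)
    (hNE : m59g_NonEis_stmt) : m59e_G5_stmt := by
  intro p _ hp35 W hΔ hss hirr
  have hp2 : p ≠ 2 := by rcases hp35 with rfl | rfl <;> norm_num
  obtain ⟨𝒪, _, _, _, _, _, _, hunr, hQ⟩ := hCo p
  have hp : (p : 𝒪) ∈ maximalIdeal 𝒪 := by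
    rw [hunr]; exact Ideal.mem_span_singleton_self _
  obtain ⟨ρW, π, hT⟩ := s58top_exists_tate s58t_tateSeam W hΔ p hp2
  have hA := hAw p hp2 W hΔ hss hirr ρW π hT 𝒪 hp
  refine ⟨𝒪, inferInstance, inferInstance, inferInstance, inferInstance, inferInstance,
    inferInstance, m59g_rho p 𝒪 hp ρW, hp, ?_⟩
  exact
    { det := hA.det
      unram := hA.unram
      frob := hA.frob
      frobRes := hA.frobRes
      unip := hA.unip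
      flat := fun hg => hFl p hp2 W hΔ hg ρW π hT 𝒪 hp hunr
      ord := fun hb => hOr p hp2 W hΔ hss hb ρW π hT 𝒪 hp
      irr := hA.irr
      tw := hTW p hp35 W hΔ hss hirr ρW π hT 𝒪 hp hA
      split := hSp p ρW 𝒪 hp hQ
      nonEis := hNE p hp2 W hΔ hss hirr ρW π hT 𝒪 hp hA }

end Fermat.Agent.M59
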