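/-
M59 / box [G5], cell (G5-away) (helper6; rulings #47/#48).  Prefix `m59ga_`.

THE TATE MODULE `T_p W ⊗ 𝒪` AWAY FROM `p`, WITHOUT ANY MODULAR INPUT.

`W` a semistable Weierstrass equation over `ℤ`, `p` odd, `W[p]` irreducible, `𝒪` a complete DVR of
characteristic `0` with `p ∈ 𝔪`, `ρ := ρ_W.baseChangeAlong (cya_padicHom p 𝒪 hp)` where
`(ρ_W, π)` is the Tate module with its level maps (`s58top_IsTate`, from `s58t_tateSeam`).

* `m59ga_tr_det_of_rel` : a NON-SCALAR endomorphism `g` in rank two over a domain with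
  `g² - t g + d = 0` has `tr g = t`, `det g = d`.
* `m59ga_det_eq_eps`    : an adic representation whose Frobenius elements outside a finite set
  satisfy `X² - t X + ℓ` and which has one non-scalar element has `det = ε` (`cya_eps`).  From the
  closure lemma `gcl_good` + weak Chebotarev `wc_main`: every `σ` satisfies some
  `X² - t X + ε(σ)`; non-scalar `σ`: the previous lemma; scalar `σ`: multiply by a non-scalar one.
  (In S58 the determinant came from the comparison with a MODULAR representation; here there is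
  none.  A scalar Frobenius is not excluded by the relation alone, whence the detour.)
* `m59ga_det`, `m59ga_charpoly`, `m59ga_tate_unram`, `m59ga_unip` : `det ρ = ε`;
  `charpoly ρ(Frob_ℓ) = X² - a_ℓ(W) X + ℓ` and `ρ` unramified at the good `ℓ ≠ p`; unipotent
  inertia at every `q ≠ p`.
* `m59ga_Away`, `m59ga_away_of`, `m59ga_main` : the package, for EVERY `𝒪` of the type and every
  Tate datum `(ρ_W, π)`, with the residual clauses (unramified, Frobenius polynomials, absolutely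
  irreducible, odd).
* `m59ga_away : m59g_Away_stmt` : the seam (G5-away) of `M59/G5/Seams.lean`.
-/
import Mathlib
import Fermat.Agent.S58.Top.Compare
import Fermat.Agent.JT3.Algebra.GoodClosure
import Fermat.Agent.WC.Final
import Fermat.Agent.S58.Cmp
import Fermat.Agent.S58.Mult.Fix
import Fermat.Agent.S58.Tate
import Fermat.Agent.S58.Frob.Seam
import Fermat.Agent.S58.IrrAbs
import Fermat.Agent.S58.BN2
import Fermat.Agent.S58.Odd
import Fermat.Agent.M59.G5.Seams

set_option autoImplicit false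
set_option linter.style.haveILetI false
set_option linter.unusedSectionVars false

open Polynomial IsLocalRing

namespace Fermat.Agent.M59

open Fermat.Agent.JT3 Fermat.Agent.S58

local notation "GQ" => (AlgebraicClosure ℚ ≃ₐ[ℚ] AlgebraicClosure ℚ)
local notation "Qbar" => AlgebraicClosure ℚ

section Algebra

variable {R : Type*} [CommRing R] [IsDomain R] {V : Type*} [AddCommGroup V] [Module R V]
  [Module.Free R V] [Module.Finite R V]

/-- a monic quadratic relation for a NON-SCALAR endomorphism in rank two gives its trace and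
determinant -/
theorem m59ga_tr_det_of_rel (hV : Module.finrank R V = 2) (g : Module.End R V)
    (hg : ∀ s : R, g ≠ s • (1 : Module.End R V)) (t d : R)
    (h : g * g - t • g + d • (1 : Module.End R V) = 0) :
    LinearMap.trace R V g = t ∧ LinearMap.det g = d := by
  have hCH : g * g - LinearMap.trace R V g • g + LinearMap.det g • (1 : Module.End R V) = 0 := by
    rw [← s58cm_aeval_eq hV g g]
    exact LinearMap.aeval_self_charpoly g
  have h1 : (LinearMap.trace R V g - t) • g + (d - LinearMap.det g) • (1 : Module.End R V)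
      = 0 := by
    have := congrArg₂ (· - ·) h hCH
    simp only [sub_self] at this
    rw [← this, sub_smul, sub_smul]
    abel
  by_cases ht : LinearMap.trace R V g - t = 0
  · rw [ht, zero_smul, zero_add] at h1
    exact ⟨sub_eq_zero.mp ht, (sub_eq_zero.mp (s58z_smul_one_eq_zero hV h1)).symm⟩
  · obtain ⟨s, hs⟩ := s58z_end_scalar hV g ht h1
    exact absurd hs (hg s)

end Algebra

section Det

variable (p : ℕ) [Fact p.Prime] {O : Type} [CommRing O] [IsDomain O] [IsLocalRing O]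
  [IsNoetherianRing O] [IsAdicComplete (maximalIdeal O) O]

/-- **determinant from the Frobenius relations**: an adic representation over a complete local
noetherian domain whose Frobenius elements outside `S` satisfy `X² - t X + ℓ`, and with one
non-scalar element, has determinant the cyclotomic character. -/
theorem m59ga_det_eq_eps (hp : (p : O) ∈ maximalIdeal O) (ρ : GaloisRepAdic O) (S : Finset ℕ)
    (hF : ∀ ℓ : ℕ, ℓ.Prime → ℓ ∉ S → ∀ P : ValuationSubring Qbar, P.LiesOverPrime ℓ →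
      ∀ φ : GQ, P.IsFrobeniusAt φ ℓ →
        ∃ t : O, ρ.ρ φ * ρ.ρ φ - t • ρ.ρ φ + (ℓ : O) • (1 : Module.End O ρ.V) = 0)
    (σ₀ : GQ) (hσ₀ : ∀ s : O, ρ.ρ σ₀ ≠ s • (1 : Module.End O ρ.V)) (σ : GQ) :
    LinearMap.det (ρ.ρ σ) = cya_eps p O hp σ := by
  -- every element satisfies a quadratic relation with constant term `ε`
  have hgood : ∀ τ : GQ, ∃ t : O,
      ρ.ρ τ * ρ.ρ τ - t • ρ.ρ τ + cya_eps p O hp τ • (1 : Module.End O ρ.V) = 0 := by
    refine gcl_good ρ.ρ ρ.isAdicContinuous (cya_eps p O hp) (cya_eps_continuous p O hp)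
      (insert p S) (fun ℓ hℓ hℓS A hA φ hφ => ?_)
      (fun L _ _ τ => Fermat.Agent.WC.wc_main L (insert p S) τ)
    have hℓp : ℓ ≠ p := fun h => hℓS (h ▸ Finset.mem_insert_self _ _)
    have hℓS' : ℓ ∉ S := fun h => hℓS (Finset.mem_insert_of_mem h)
    rw [cya_eps_frob p O hp hℓ hℓp A hA φ hφ]
    exact hF ℓ hℓ hℓS' A hA φ hφ
  -- the non-scalar case
  have key : ∀ τ : GQ, (∀ s : O, ρ.ρ τ ≠ s • (1 : Module.End O ρ.V)) →
      LinearMap.det (ρ.ρ τ) = cya_eps p O hp τ := by
    intro τ hτ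
    obtain ⟨t, ht⟩ := hgood τ
    exact (m59ga_tr_det_of_rel ρ.finrank_eq (ρ.ρ τ) hτ t _ ht).2
  by_cases hσ : ∀ s : O, ρ.ρ σ ≠ s • (1 : Module.End O ρ.V)
  · exact key σ hσ
  · push Not at hσ
    obtain ⟨s, hs⟩ := hσ
    -- `ρ(σ σ₀) = s • ρ(σ₀)` is not a scalar
    have hsu : IsUnit s := by
      have h1 : ρ.ρ σ * ρ.ρ σ⁻¹ = 1 := by rw [← map_mul, mul_inv_cancel, map_one]
      have h2 : LinearMap.det (ρ.ρ σ) * LinearMap.det (ρ.ρ σ⁻¹) = 1 := by
        rw [← map_mul, h1, map_one]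
      have h3 : LinearMap.det (ρ.ρ σ) = s ^ 2 := by
        rw [hs, LinearMap.det_smul, ρ.finrank_eq, map_one, mul_one]
      rw [h3] at h2
      exact IsUnit.of_mul_eq_one _ (by rw [← h2]; ring : s * (s * LinearMap.det (ρ.ρ σ⁻¹)) = 1)
    have hprod : ∀ r : O, ρ.ρ (σ * σ₀) ≠ r • (1 : Module.End O ρ.V) := by
      intro r hr
      obtain ⟨u, rfl⟩ := hsu
      refine hσ₀ ((↑u⁻¹ : O) * r) ?_
      have : ρ.ρ (σ * σ₀) = (u : O) • ρ.ρ σ₀ := by
        rw [map_mul, hs, smul_mul_assoc, one_mul]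
      rw [this] at hr
      rw [mul_smul, ← hr, smul_smul, Units.inv_mul, one_smul]
    have h1 := key (σ * σ₀) hprod
    have h2 := key σ₀ hσ₀
    rw [map_mul, map_mul, map_mul, h2] at h1
    have hu : IsUnit (cya_eps p O hp σ₀) := cya_eps_isUnit p O hp σ₀
    exact hu.mul_right_cancel h1

end Det

/-! ### the Tate module -/

section Tate

open WeierstrassCurve WeierstrassCurve.Affine Fermat.Agent.S05

variable {W : WeierstrassCurve ℤ} {p : ℕ} [Fact p.Prime] {ρW : GaloisRepAdic ℤ_[p]}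
  {π : ℕ → ρW.V →+ s58_E W}

/-- the finite set of primes to avoid -/
noncomputable def m59ga_S (W : WeierstrassCurve ℤ) (p : ℕ) : Finset ℕ :=
  insert p W.Δ.natAbs.primeFactors

theorem m59ga_S_spec (hΔ : W.Δ ≠ 0) {ℓ : ℕ} (hℓ : ℓ.Prime) (hℓS : ℓ ∉ m59ga_S W p) :
    ℓ ≠ p ∧ ¬ (ℓ : ℤ) ∣ W.Δ := by
  rw [m59ga_S, Finset.mem_insert, not_or] at hℓS
  refine ⟨hℓS.1, fun h => hℓS.2 (Nat.mem_primeFactors.mpr ⟨hℓ, ?_, ?_⟩)⟩
  · exact Int.natCast_dvd.mp h
  · exact Int.natAbs_ne_zero.mpr hΔ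

/-- **the determinant of `T_p W ⊗ O` is the cyclotomic character** (no modular input) -/
theorem m59ga_det (hF : s58_FrobSeam) (hT : s58top_IsTate W p ρW π) (hΔ : W.Δ ≠ 0)
    (hp2 : p ≠ 2) (hirr : W.ModRepIsIrreducible p)
    (O : Type) [CommRing O] [IsDomain O] [IsDiscreteValuationRing O]
    [IsAdicComplete (maximalIdeal O) O] [CharZero O] (hp : (p : O) ∈ maximalIdeal O) (σ : s58_G) :
    LinearMap.det ((ρW.baseChangeAlong (cya_padicHom p O hp)
      (s58top_padicHom_isLocalHom p O hp)).ρ σ) = cya_eps p O hp σ := by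
  have hφ := s58top_padicHom_isLocalHom p O hp
  have hinj := s58top_padicHom_injective p O hp
  obtain ⟨σ₀, hσ₀⟩ := s58top_exists_nonscalar hT hΔ hp2 hirr
  have hσ₀' := s58top_baseChange_nonscalar (cya_padicHom p O hp) hφ hinj ρW σ₀ hσ₀
  refine m59ga_det_eq_eps p hp _ (m59ga_S W p) (fun ℓ hℓ hℓS P hP φ hφ' => ?_) σ₀ hσ₀' σ
  obtain ⟨hne, hgood⟩ := m59ga_S_spec hΔ hℓ hℓS
  have h := s58top_frob_rel' hF hT O _ hφ hℓ hgood hne P hP φ hφ'
  exact ⟨((W.apOfModel ℓ : ℤ) : O), by rw [← pow_two]; exact h⟩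

/-- the characteristic polynomial of a Frobenius element at a good prime `ℓ ≠ p` -/
theorem m59ga_charpoly (hF : s58_FrobSeam) (hT : s58top_IsTate W p ρW π) (hΔ : W.Δ ≠ 0)
    (hp2 : p ≠ 2) (hirr : W.ModRepIsIrreducible p)
    (O : Type) [CommRing O] [IsDomain O] [IsDiscreteValuationRing O]
    [IsAdicComplete (maximalIdeal O) O] [CharZero O] (hp : (p : O) ∈ maximalIdeal O)
    {ℓ : ℕ} (hℓ : ℓ.Prime) (hne : ℓ ≠ p) (hgood : ¬ (ℓ : ℤ) ∣ W.Δ)
    (A : ValuationSubring s58_Qb) (hA : A.LiesOverPrime ℓ) (σ : s58_G)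
    (hσ : A.IsFrobeniusAt σ ℓ) :
    LinearMap.charpoly ((ρW.baseChangeAlong (cya_padicHom p O hp)
      (s58top_padicHom_isLocalHom p O hp)).ρ σ) =
      X ^ 2 - C ((W.apOfModel ℓ : ℤ) : O) * X + C (ℓ : O) := by
  have hφ := s58top_padicHom_isLocalHom p O hp
  set ρ := ρW.baseChangeAlong (cya_padicHom p O hp) hφ with hρ
  have hdet : LinearMap.det (ρ.ρ σ) = (ℓ : O) := by
    rw [hρ, m59ga_det hF hT hΔ hp2 hirr O hp σ, cya_eps_frob p O hp hℓ hne A hA σ hσ]
  have hrel := s58top_frob_rel' hF hT O _ hφ hℓ hgood hne A hA σ hσ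
  have hCH : (ρ.ρ σ) ^ 2 - LinearMap.trace O ρ.V (ρ.ρ σ) • ρ.ρ σ
      + (ℓ : O) • (1 : Module.End O ρ.V) = 0 := by
    rw [pow_two, ← hdet, ← s58cm_aeval_eq ρ.finrank_eq (ρ.ρ σ) (ρ.ρ σ)]
    exact LinearMap.aeval_self_charpoly _
  have htr := s58top_trace_eq ρ σ _ _ _ hCH hrel
  rw [s58cm_charpoly_two ρ.finrank_eq, htr, hdet]

/-- `T_p W` is unramified at the good primes `q ≠ p` -/
theorem m59ga_tate_unram (hT : s58top_IsTate W p ρW π) {q : ℕ} (hq : q.Prime) (hqp : q ≠ p)
    (hgood : ¬ (q : ℤ) ∣ W.Δ) : ρW.IsUnramifiedAt q := by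
  intro A hA σ hσ
  let _ : DecidableEq (ResidueField A) := Classical.decEq _
  have hM := s58m_model W A
  have hΔk : (s58m_Wk W A).Δ ≠ 0 := by
    rw [s58m_Wk_Δ]
    exact fun h => hgood ((s58m_residue_intCast_eq_zero_iff hA hq _).mp h)
  have hpp : p.Prime := Fact.out
  refine LinearMap.ext fun v => ?_
  rw [Module.End.one_apply, ← sub_eq_zero]
  refine hT.sep _ fun n => ?_
  have hqn : ¬ (q : ℤ) ∣ ((p ^ n : ℕ) : ℤ) := by
    intro h
    have h1 : q ∣ p ^ n := by exact_mod_cast h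
    have h2 : q ∣ p := hq.dvd_of_dvd_pow h1
    exact hqp ((Nat.prime_dvd_prime_iff_eq hq hpp).mp h2)
  have hunit : A.valuation (((p ^ n : ℕ)) : s58_Qb) = 1 := by
    have := (intVal_eq_one_iff A hA hq ((p ^ n : ℕ) : ℤ)).mpr hqn
    rwa [Int.cast_natCast] at this
  have hfix := s58m_inertia_fixed hM hσ hunit ⟨π n v, s58r_mem_E0_of_good hM hΔk _⟩
    (hT.tor n v)
  rw [map_sub, hT.gal, sub_eq_zero]
  exact hfix

/-- unipotent inertia at every `q ≠ p` for `T_p W ⊗ O` (`W` semistable) -/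
theorem m59ga_unip (hF : s58_FrobSeam) (hX : s58_FixSeam) (hT : s58top_IsTate W p ρW π)
    (hss : W.IsSemistableModel) (hΔ : W.Δ ≠ 0) (hp2 : p ≠ 2) (hirr : W.ModRepIsIrreducible p)
    (O : Type) [CommRing O] [IsDomain O] [IsDiscreteValuationRing O]
    [IsAdicComplete (maximalIdeal O) O] [CharZero O] (hp : (p : O) ∈ maximalIdeal O)
    {q : ℕ} (hq : q.Prime) (hqp : q ≠ p) :
    (ρW.baseChangeAlong (cya_padicHom p O hp)
      (s58top_padicHom_isLocalHom p O hp)).IsUnipotentOnInertiaAt q := by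
  intro P hP σ hσ
  have hφ := s58top_padicHom_isLocalHom p O hp
  have hinjφ := s58top_padicHom_injective p O hp
  have h1 : (LinearMap.charpoly (ρW.ρ σ)).eval 1 = 0 :=
    s58top_eval_one hX hT hss hΔ hp2 hq hqp P hP σ hσ
  have h2 : LinearMap.det (ρW.ρ σ) = 1 := by
    apply hinjφ
    rw [map_one, ← cya_eps_inertia p O hp hq hqp P hP hσ, ← m59ga_det hF hT hΔ hp2 hirr O hp σ,
      s58top_baseChange_det]
  rw [s58z_charpoly_two ρW.finrank_eq, h2] at h1
  simp only [eval_add, eval_sub, eval_pow, eval_X, eval_mul, eval_C, one_pow, mul_one] at h1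
  have h3 : LinearMap.trace ℤ_[p] ρW.V (ρW.ρ σ) = 2 := by linear_combination -h1
  rw [s58top_baseChange_charpoly, s58z_charpoly_two ρW.finrank_eq, h2, h3]
  simp only [Polynomial.map_add, Polynomial.map_sub, Polynomial.map_pow, Polynomial.map_mul,
    Polynomial.map_X, map_one, map_ofNat, Polynomial.map_ofNat, Polynomial.map_one]
  ring

/-- base change preserves unramifiedness -/
theorem m59ga_baseChange_unram {A B : Type} [CommRing A] [IsLocalRing A] [CommRing B]
    [IsLocalRing B] (φ : A →+* B) (hφ : IsLocalHom φ) (ρ : GaloisRepAdic A) {q : ℕ}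
    (h : ρ.IsUnramifiedAt q) : (ρ.baseChangeAlong φ hφ).IsUnramifiedAt q := by
  intro P hP σ hσ
  letI : Algebra A B := φ.toAlgebra
  have h1 := congrArg (LinearMap.baseChange B) (h P hP σ hσ)
  rw [LinearMap.baseChange_one] at h1
  exact h1

/-- the residual representation of an unramified representation is unramified -/
theorem m59ga_residual_unram {A : Type} [CommRing A] [IsLocalRing A] (ρ : GaloisRepAdic A)
    {q : ℕ} (h : ρ.IsUnramifiedAt q) : ρ.residual.IsUnramifiedAt q := by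
  intro P hP σ hσ
  have h1 := congrArg (LinearMap.baseChange (ResidueField A)) (h P hP σ hσ)
  rw [LinearMap.baseChange_one] at h1
  exact h1

end Tate

/-! ### the package -/

/-- the clauses AWAY FROM `p` of `ρ = T_p W ⊗ O` -/
structure m59ga_Away (W : WeierstrassCurve ℤ) (p : ℕ) {O : Type} [CommRing O] [IsLocalRing O]
    (ρ : GaloisRepAdic O) : Prop where
  det : ρ.DetIsCyclotomic p
  unram : ∀ q : ℕ, q.Prime → q ≠ p → ¬ (q : ℤ) ∣ W.Δ → ρ.IsUnramifiedAt q
  charpoly : ∀ ℓ : ℕ, ℓ.Prime → ℓ ≠ p → ¬ (ℓ : ℤ) ∣ W.Δ →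
    ∀ A : ValuationSubring s58_Qb, A.LiesOverPrime ℓ → ∀ σ : s58_G, A.IsFrobeniusAt σ ℓ →
      LinearMap.charpoly (ρ.ρ σ) = X ^ 2 - C ((W.apOfModel ℓ : ℤ) : O) * X + C (ℓ : O)
  unip : ∀ q : ℕ, q.Prime → q ≠ p → ρ.IsUnipotentOnInertiaAt q
  res_unram : ∀ q : ℕ, q.Prime → q ≠ p → ¬ (q : ℤ) ∣ W.Δ → ρ.residual.IsUnramifiedAt q
  res_charpoly : ∀ ℓ : ℕ, ℓ.Prime → ℓ ≠ p → ¬ (ℓ : ℤ) ∣ W.Δ →
    ∀ A : ValuationSubring s58_Qb, A.LiesOverPrime ℓ → ∀ σ : s58_G, A.IsFrobeniusAt σ ℓ →
      LinearMap.charpoly (ρ.residual.ρ σ) =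
        X ^ 2 - C ((W.apOfModel ℓ : ℤ) : ResidueField O) * X + C (ℓ : ResidueField O)
  res_absIrr : ρ.residual.IsAbsolutelyIrreducible
  res_odd : ρ.residual.IsOdd

/-- **(G5-away)** for a given Tate datum `(ρ_W, π)`: for a semistable `W` with `W[p]` irreducible,
`p` odd, and every complete DVR `O` of characteristic zero with `p ∈ 𝔪`, the representation
`T_p W ⊗ O` has all the clauses away from `p`.  No modular input. -/
theorem m59ga_away_of {W : WeierstrassCurve ℤ} (hss : W.IsSemistableModel) (hΔ : W.Δ ≠ 0)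
    {p : ℕ} [Fact p.Prime] (hp2 : p ≠ 2) (hirr : W.ModRepIsIrreducible p)
    {ρW : GaloisRepAdic ℤ_[p]} {π : ℕ → ρW.V →+ s58_E W} (hT : s58top_IsTate W p ρW π)
    (O : Type) [CommRing O] [IsDomain O] [IsDiscreteValuationRing O]
    [IsAdicComplete (maximalIdeal O) O] [CharZero O] (hp : (p : O) ∈ maximalIdeal O) :
    m59ga_Away W p (ρW.baseChangeAlong (cya_padicHom p O hp)
      (s58top_padicHom_isLocalHom p O hp)) := by
  have hF := s58fa_frobSeam
  have hX := s58m_fixSeam
  have hφ := s58top_padicHom_isLocalHom p O hp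
  have hun : ∀ q : ℕ, q.Prime → q ≠ p → ¬ (q : ℤ) ∣ W.Δ →
      (ρW.baseChangeAlong (cya_padicHom p O hp) hφ).IsUnramifiedAt q := fun q hq hqp hgood =>
    m59ga_baseChange_unram _ hφ ρW (m59ga_tate_unram hT hq hqp hgood)
  have hch := fun ℓ hℓ hne hgood A hA σ hσ =>
    m59ga_charpoly hF hT hΔ hp2 hirr O hp (ℓ := ℓ) hℓ hne hgood A hA σ hσ
  have hcyc := cya_detIsCyclotomic p _ hp (m59ga_det hF hT hΔ hp2 hirr O hp)
  refine ⟨hcyc, hun, hch,
    fun q hq hqp => m59ga_unip hF hX hT hss hΔ hp2 hirr O hp hq hqp,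
    fun q hq hqp hgood => m59ga_residual_unram _ (hun q hq hqp hgood),
    fun ℓ hℓ hne hgood A hA σ hσ => ?_, ?_,
    s58od_residual_isOdd _ ((Fact.out : p.Prime).odd_of_ne_two hp2) hcyc⟩
  · rw [s58top_residual_charpoly, hch ℓ hℓ hne hgood A hA σ hσ]
    rw [Polynomial.map_add, Polynomial.map_sub, Polynomial.map_pow, Polynomial.map_mul,
      Polynomial.map_X, Polynomial.map_C, Polynomial.map_C, map_intCast, map_natCast]
  · -- absolute irreducibility of the residual representation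
    have hinj := s58top_padicHom_injective p O hp
    have hc : LinearMap.det (ρW.ρ complexConjugation) = -1 := by
      apply hinj
      rw [map_neg, map_one, ← cya_eps_complexConjugation p O hp,
        ← m59ga_det hF hT hΔ hp2 hirr O hp, s58top_baseChange_det]
    have hpZ : (p : ℤ_[p]) ∈ maximalIdeal ℤ_[p] := by
      rw [PadicInt.maximalIdeal_eq_span_p]; exact Ideal.mem_span_singleton_self _
    have hW : ρW.residual.IsAbsolutelyIrreducible :=
      s58ia_seam (ResidueField ℤ_[p]) ρW.residual (s58top_two_ne_zero p ℤ_[p] hpZ hp2)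
        (s58top_residual_irreducible hT hirr)
        ⟨complexConjugation, complexConjugation_mul_self, by
          rw [s58top_residual_det, hc, map_neg, map_one]⟩
    haveI := hφ
    refine s58bn_seam (ResidueField ℤ_[p]) (ResidueField O)
      (ResidueField.map (cya_padicHom p O hp)) ρW.residual _
      (s58top_two_ne_zero p O hp hp2) hW fun σ => ?_
    rw [s58top_residual_charpoly, s58top_residual_charpoly, s58top_baseChange_charpoly,
      Polynomial.map_map, Polynomial.map_map]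
    rfl

/-- existence form: the Tate module of `W` (from `s58t_tateSeam`) with its clauses away from `p` -/
theorem m59ga_main (W : WeierstrassCurve ℤ) (hss : W.IsSemistableModel) (hΔ : W.Δ ≠ 0)
    (p : ℕ) [Fact p.Prime] (hp2 : p ≠ 2) (hirr : W.ModRepIsIrreducible p)
    (O : Type) [CommRing O] [IsDomain O] [IsDiscreteValuationRing O]
    [IsAdicComplete (maximalIdeal O) O] [CharZero O] (hp : (p : O) ∈ maximalIdeal O) :
    ∃ (ρW : GaloisRepAdic ℤ_[p]) (π : ℕ → ρW.V →+ s58_E W), s58top_IsTate W p ρW π ∧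
      m59ga_Away W p (ρW.baseChangeAlong (cya_padicHom p O hp)
        (s58top_padicHom_isLocalHom p O hp)) := by
  obtain ⟨ρW, π, hT⟩ := s58top_exists_tate s58t_tateSeam W hΔ p hp2
  exact ⟨ρW, π, hT, m59ga_away_of hss hΔ hp2 hirr hT O hp⟩

/-- **the seam (G5-away)** of `M59/G5/Seams.lean`. -/
theorem m59ga_away : m59g_Away_stmt := by
  intro p _ hp2 W hΔ hss hirr ρW π hT 𝒪 _ _ _ _ _ _ hp
  have hA := m59ga_away_of hss hΔ hp2 hirr hT 𝒪 hp
  exact
    { det := hA.det
      unram := hA.unram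
      frob := hA.charpoly
      frobRes := hA.res_charpoly
      unip := hA.unip
      irr := hA.res_absIrr }

end Fermat.Agent.M59
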