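import Fermat.Agent.M59.G5.Seams
import Fermat.Agent.M59.G5.Flat.Seams
import Fermat.Agent.TW.Top.Coef

/-!
M59 / block [G5] (helper29), prefix `m59g_`.  ISSUE 2 OF THE LEVEL-2 SEAMS (referees #5361/#5365,
helper6 #5337, chief #5352 (4)).  `M59/G5/Seams.lean` is left untouched (other files import it);
the final wiring uses the shapes of THIS file.

Changes:
* `m59g_Coeff2_stmt` : the coefficient ring contains a primitive `p`-th root of unity (needed by the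
  TW-level cells of [CORE]); `maximalIdeal 𝒪 = (p)` is dropped.  PROVED here (`m59g_coeff2`) from
  main's `twm0_coef p (ZMod p)`.
* `m59g_Flat2_stmt`  : (G5-flat) for EVERY `𝒪` of the type (no `maximalIdeal 𝒪 = (p)`): the
  `G_ℚ`-module `V_𝒪 ⧸ I V_𝒪 = (𝒪 ⧸ I) ⊗ V` only sees the finite abelian `p`-group `𝒪 ⧸ I`.
  `m59g_FlatSoft2_stmt := m59g_LocOrd_stmt → m59g_Flat2_stmt` is the algebraic cell
  (`m59g_LocOrd_stmt` is CLOSED: `m59g_locOrd`, M59/G5/Flat/WInst.lean).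
* `m59g_Ord2_stmt`   : (G5-ord) with the extra hypothesis `DetIsCyclotomic` (available at the call).
* `m59g_TW2_stmt`    : (hTW) with the extra hypothesis `m59g_QuadClosed k` (available at the call).
* `m59g_G5z_stmt`    : `m59e_G5_stmt` with `∃ ζ : 𝒪, IsPrimitiveRoot ζ p` added to the conclusion;
  `m59g_G5z_of` (wiring, PROVED, [COEFF] plugged in), `m59g_G5_of_G5z : m59g_G5z_stmt → m59e_G5_stmt`.
-/

set_option autoImplicit false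
set_option linter.style.haveILetI false

open Polynomial IsLocalRing WeierstrassCurve Fermat.Agent.TW Fermat.Agent.S58 Fermat.Agent.JT3

namespace Fermat.Agent.M59

/-- **[COEFF]**, issue 2: with a primitive `p`-th root of unity. -/
def m59g_Coeff2_stmt : Prop :=
  ∀ (p : ℕ) [Fact p.Prime],
    ∃ (𝒪 : Type) (_ : CommRing 𝒪) (_ : IsDomain 𝒪) (_ : IsDiscreteValuationRing 𝒪)
      (_ : IsAdicComplete (maximalIdeal 𝒪) 𝒪) (_ : Finite (ResidueField 𝒪)) (_ : CharZero 𝒪),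
      (p : 𝒪) ∈ maximalIdeal 𝒪 ∧ (∃ ζ : 𝒪, IsPrimitiveRoot ζ p) ∧
        m59g_QuadClosed (ResidueField 𝒪)

theorem m59g_coeff2 : m59g_Coeff2_stmt := by
  intro p hp
  obtain ⟨𝒪, i1, i2, i3, i4, i5, i6, i7, hp𝒪, hζ, hq⟩ := twm0_coef p (ZMod p)
  refine ⟨𝒪, i1, i2, i3, i4, i5, i6, hp𝒪, hζ, ?_⟩
  intro t d
  set g : (ZMod p)[X] := X ^ 2 - C (t : ZMod p) * X + C (d : ZMod p) with hg
  have hdeg : g.natDegree = 2 := by
    rw [hg]; compute_degree!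
  have hmon : g.Monic := by
    rw [hg]; monicity!
  obtain ⟨α, β, h⟩ := hq g hmon hdeg
  refine ⟨α, β, ?_⟩
  rw [← h, hg]
  simp only [Polynomial.map_add, Polynomial.map_sub, Polynomial.map_mul, Polynomial.map_pow,
    Polynomial.map_X, map_intCast, Polynomial.map_intCast]

/-- **(G5-flat)**, issue 2: for every `𝒪`. -/
def m59g_Flat2_stmt : Prop :=
  ∀ (p : ℕ) [Fact p.Prime], p ≠ 2 → ∀ W : WeierstrassCurve ℤ, W.Δ ≠ 0 → W.IsGoodPrimeFor p →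
  ∀ (ρW : GaloisRepAdic ℤ_[p]) (π : ℕ → ρW.V →+ s58_E W), s58top_IsTate W p ρW π →
  ∀ (𝒪 : Type) [CommRing 𝒪] [IsDomain 𝒪] [IsDiscreteValuationRing 𝒪]
    [IsAdicComplete (maximalIdeal 𝒪) 𝒪] [Finite (ResidueField 𝒪)] [CharZero 𝒪]
    (hp : (p : 𝒪) ∈ maximalIdeal 𝒪), (m59g_rho p 𝒪 hp ρW).IsFlatAt p

theorem m59g_flat_of_flat2 (h : m59g_Flat2_stmt) : m59g_Flat_stmt :=
  fun p _ hp2 W hΔ hg ρW π hT 𝒪 _ _ _ _ _ _ hp _ => h p hp2 W hΔ hg ρW π hT 𝒪 hp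

/-- **(F-soft)**, issue 2: the algebraic cell of (G5-flat). -/
def m59g_FlatSoft2_stmt : Prop := m59g_LocOrd_stmt → m59g_Flat2_stmt

/-- **(G5-ord)**, issue 2: with `det = ε` as a hypothesis. -/
def m59g_Ord2_stmt : Prop :=
  ∀ (p : ℕ) [Fact p.Prime], p ≠ 2 → ∀ W : WeierstrassCurve ℤ, W.Δ ≠ 0 →
    W.IsSemistableModel → ¬ W.IsGoodPrimeFor p →
  ∀ (ρW : GaloisRepAdic ℤ_[p]) (π : ℕ → ρW.V →+ s58_E W), s58top_IsTate W p ρW π →
  ∀ (𝒪 : Type) [CommRing 𝒪] [IsDomain 𝒪] [IsDiscreteValuationRing 𝒪]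
    [IsAdicComplete (maximalIdeal 𝒪) 𝒪] [Finite (ResidueField 𝒪)] [CharZero 𝒪]
    (hp : (p : 𝒪) ∈ maximalIdeal 𝒪), (m59g_rho p 𝒪 hp ρW).DetIsCyclotomic p →
    (m59g_rho p 𝒪 hp ρW).IsOrdinaryAt p

theorem m59g_ord2_of_ord (h : m59g_Ord_stmt) : m59g_Ord2_stmt :=
  fun p _ hp2 W hΔ hss hb ρW π hT 𝒪 _ _ _ _ _ _ hp _ => h p hp2 W hΔ hss hb ρW π hT 𝒪 hp

/-- **(hTW)**, issue 2: with `m59g_QuadClosed k` as a hypothesis. -/
def m59g_TW2_stmt : Prop :=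
  ∀ (p : ℕ) [Fact p.Prime], p = 3 ∨ p = 5 → ∀ W : WeierstrassCurve ℤ, W.Δ ≠ 0 →
    W.IsSemistableModel → W.ModRepIsIrreducible p →
  ∀ (ρW : GaloisRepAdic ℤ_[p]) (π : ℕ → ρW.V →+ s58_E W), s58top_IsTate W p ρW π →
  ∀ (𝒪 : Type) [CommRing 𝒪] [IsDomain 𝒪] [IsDiscreteValuationRing 𝒪]
    [IsAdicComplete (maximalIdeal 𝒪) 𝒪] [Finite (ResidueField 𝒪)] [CharZero 𝒪]
    (hp : (p : 𝒪) ∈ maximalIdeal 𝒪), m59g_QuadClosed (ResidueField 𝒪) →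
    m59g_IsAway p W (m59g_rho p 𝒪 hp ρW) →
    twt_TWHyp (m59g_rho p 𝒪 hp ρW).residual

theorem m59g_tw2_of_tw (h : m59g_TW_stmt) : m59g_TW2_stmt :=
  fun p _ hp35 W hΔ hss hirr ρW π hT 𝒪 _ _ _ _ _ _ hp _ hA =>
    h p hp35 W hΔ hss hirr ρW π hT 𝒪 hp hA

/-- **[G5]**, issue 2: `m59e_G5_stmt` with a primitive `p`-th root of unity in `𝒪`. -/
def m59g_G5z_stmt : Prop :=
  ∀ (p : ℕ) [Fact p.Prime], p = 3 ∨ p = 5 → ∀ W : WeierstrassCurve ℤ, W.Δ ≠ 0 →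
    W.IsSemistableModel → W.ModRepIsIrreducible p →
    ∃ (𝒪 : Type) (_ : CommRing 𝒪) (_ : IsDomain 𝒪) (_ : IsDiscreteValuationRing 𝒪)
      (_ : IsAdicComplete (maximalIdeal 𝒪) 𝒪) (_ : Finite (ResidueField 𝒪)) (_ : CharZero 𝒪)
      (ρ : GaloisRepAdic 𝒪), (p : 𝒪) ∈ maximalIdeal 𝒪 ∧ (∃ ζ : 𝒪, IsPrimitiveRoot ζ p) ∧
        m59e_IsTate p W ρ

theorem m59g_G5_of_G5z (h : m59g_G5z_stmt) : m59e_G5_stmt := by
  intro p _ hp35 W hΔ hss hirr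
  obtain ⟨𝒪, i1, i2, i3, i4, i5, i6, ρ, hp, -, hT⟩ := h p hp35 W hΔ hss hirr
  exact ⟨𝒪, i1, i2, i3, i4, i5, i6, ρ, hp, hT⟩

/-- **[G5] (issue 2) from its cells**, [COEFF] plugged in. -/
theorem m59g_G5z_of (hAw : m59g_Away_stmt) (hFl : m59g_Flat2_stmt)
    (hOr : m59g_Ord2_stmt) (hTW : m59g_TW2_stmt) (hSp : m59g_Split_stmt)
    (hNE : m59g_NonEis_stmt) : m59g_G5z_stmt := by
  intro p _ hp35 W hΔ hss hirr
  have hp2 : p ≠ 2 := by rcases hp35 with rfl | rfl <;> norm_num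
  obtain ⟨𝒪, _, _, _, _, _, _, hp, hζ, hQ⟩ := m59g_coeff2 p
  obtain ⟨ρW, π, hT⟩ := s58top_exists_tate s58t_tateSeam W hΔ p hp2
  have hA := hAw p hp2 W hΔ hss hirr ρW π hT 𝒪 hp
  refine ⟨𝒪, inferInstance, inferInstance, inferInstance, inferInstance, inferInstance,
    inferInstance, m59g_rho p 𝒪 hp ρW, hp, hζ, ?_⟩
  exact
    { det := hA.det
      unram := hA.unram
      frob := hA.frob
      frobRes := hA.frobRes
      unip := hA.unip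
      flat := fun hg => hFl p hp2 W hΔ hg ρW π hT 𝒪 hp
      ord := fun hb => hOr p hp2 W hΔ hss hb ρW π hT 𝒪 hp hA.det
      irr := hA.irr
      tw := hTW p hp35 W hΔ hss hirr ρW π hT 𝒪 hp hQ hA
      split := hSp p ρW 𝒪 hp hQ
      nonEis := hNE p hp2 W hΔ hss hirr ρW π hT 𝒪 hp hA }

end Fermat.Agent.M59
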