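import Fermat.Agent.M59.G5.Seams
import Fermat.Agent.TW.Top.Coef

/-!
M59 / block [G5] (helper29), prefix `m59g_`.  Cell [COEFF]: `m59g_coeff : m59g_Coeff_stmt`.

`𝒪 := 𝕎(𝔽_{p²})` (Mathlib's Witt vectors of `GaloisField p 2`): a complete DVR of characteristic `0`
with `maximalIdeal = (p)` (unramified over `ℤ_p`) and residue field `≃ 𝔽_{p²}`, in which every
quadratic with coefficients in the prime field splits (main's `twm0_quadratic_factor`).
-/

set_option autoImplicit false
set_option linter.style.haveILetI false

open Polynomial IsLocalRing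

namespace Fermat.Agent.M59

section

variable (p : ℕ) [hp : Fact p.Prime]

/-- the residue ring `𝕎 k ⧸ (p) ≃ k`, transported to the residue field. -/
theorem m59g_witt_maximalIdeal (k : Type) [Field k] [CharP k p] [PerfectRing k p] :
    maximalIdeal (WittVector p k) = Ideal.span {(p : WittVector p k)} :=
  (WittVector.irreducible p).maximalIdeal_eq

/-- `𝕎 k` has characteristic zero. -/
theorem m59g_witt_charZero (k : Type) [Field k] [CharP k p] [PerfectRing k p] :
    CharZero (WittVector p k) := by
  obtain ⟨q, hq⟩ := CharP.exists (WittVector p k)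
  rcases CharP.char_is_prime_or_zero (WittVector p k) q with hqp | hq0
  · exfalso
    have h0 : ((q : ℕ) : WittVector p k) = 0 := CharP.cast_eq_zero _ q
    by_cases hqe : q = p
    · subst hqe
      exact WittVector.p_nonzero q k h0
    · have h1 : (WittVector.constantCoeff ((q : ℕ) : WittVector p k) : k) = 0 := by
        rw [h0, map_zero]
      rw [map_natCast] at h1
      have h2 : p ∣ q := (CharP.cast_eq_zero_iff k p q).mp h1
      exact hqe (((Nat.prime_dvd_prime_iff_eq hp.out hqp).mp h2).symm)
  · subst hq0
    exact CharP.charP_to_charZero _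

/-- the residue field of `𝕎 k` is `k`. -/
noncomputable def m59g_wittResEquiv (k : Type) [Field k] [CharP k p] [PerfectRing k p] :
    ResidueField (WittVector p k) ≃+* k :=
  (Ideal.quotEquivOfEq (m59g_witt_maximalIdeal p k)).trans WittVector.quotientPEquiv

end

/-- **[COEFF]** -/
theorem m59g_coeff : m59g_Coeff_stmt := by
  intro p hp
  let k : Type := GaloisField p 2
  haveI : Fintype k := Fintype.ofFinite k
  haveI : CharP k p := inferInstance
  haveI : PerfectRing k p := inferInstance
  let 𝒪 : Type := WittVector p k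
  have hmax : maximalIdeal 𝒪 = Ideal.span {(p : 𝒪)} := m59g_witt_maximalIdeal p k
  have hcomp : IsAdicComplete (maximalIdeal 𝒪) 𝒪 := by
    rw [hmax]; infer_instance
  let e : ResidueField 𝒪 ≃+* k := m59g_wittResEquiv p k
  have hfin : Finite (ResidueField 𝒪) := Finite.of_equiv k e.symm.toEquiv
  have hcz : CharZero 𝒪 := m59g_witt_charZero p k
  refine ⟨𝒪, inferInstance, inferInstance, inferInstance, hcomp, hfin, hcz, hmax, ?_⟩
  -- quadratics
  intro t d
  haveI : CharP (ResidueField 𝒪) p := charP_of_injective_ringHom (f := (e.symm : k →+* ResidueField 𝒪))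
    e.symm.injective p
  letI : Algebra (ZMod p) (ResidueField 𝒪) := ZMod.algebra _ p
  have hcardκ : Nat.card (ResidueField 𝒪) = p ^ 2 := by
    rw [Nat.card_congr e.toEquiv]
    exact GaloisField.card p 2 two_ne_zero
  have hsp : (X ^ (Nat.card (ZMod p)) ^ 2 - X : (ResidueField 𝒪)[X]).Splits := by
    rw [Nat.card_zmod, ← hcardκ]
    exact Polynomial.splits_X_pow_nat_card_sub_X
  set g : (ZMod p)[X] := X ^ 2 - C (t : ZMod p) * X + C (d : ZMod p) with hg
  have hdeg : g.natDegree = 2 := by
    rw [hg]; compute_degree!
  have hmon : g.Monic := by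
    rw [hg]; monicity!
  obtain ⟨α, β, h⟩ := Fermat.Agent.TW.twm0_quadratic_factor hsp g hmon hdeg
  refine ⟨α, β, ?_⟩
  rw [← h, hg]
  simp only [Polynomial.map_add, Polynomial.map_sub, Polynomial.map_mul, Polynomial.map_pow,
    Polynomial.map_X, map_intCast, Polynomial.map_intCast]

end Fermat.Agent.M59
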