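/-
M59 / box [G5], seam 7 (nonEis) (helper6; ruling #48, #5300).  Prefix `m59ga_`.

`m59ga_nonEis : m59g_NonEis_stmt`: for every finite `S` some prime `ℓ ∉ S` has
`a_ℓ(W) ≠ ℓ + 1` in the residue field of `𝒪`.  From main's `lrv_exists_nonEis_prime`
(LR/NonEis/Main.lean: `W[p]` irreducible, `p` odd ⟹ a good `ℓ ∉ S`, `ℓ ≠ p`, with
`p ∤ ℓ + 1 - a_ℓ(W)`) and `lrv_int_mem_iff` (an integer lies in a maximal ideal over `p` iff `p`
divides it).
-/
import Mathlib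
import Fermat.Agent.M59.G5.Seams
import Fermat.Agent.LR.NonEis.Main
import Fermat.Agent.LR.NonEis.Final

set_option autoImplicit false

open Polynomial IsLocalRing

namespace Fermat.Agent.M59

/-- for every finite `S` some prime `ℓ ∉ S` has `a_ℓ(W) ≠ ℓ + 1` in the residue field of `O` -/
theorem m59ga_nonEis_of (W : WeierstrassCurve ℤ) (hΔ : W.Δ ≠ 0) (p : ℕ) [Fact p.Prime]
    (hp2 : p ≠ 2) (hirr : W.ModRepIsIrreducible p) (O : Type) [CommRing O] [IsLocalRing O]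
    (hp : (p : O) ∈ maximalIdeal O) (S : Finset ℕ) :
    ∃ ℓ : ℕ, ℓ.Prime ∧ ℓ ∉ S ∧
      ((W.apOfModel ℓ : ℤ) : ResidueField O) ≠ (ℓ : ResidueField O) + 1 := by
  obtain ⟨ℓ, hℓ, -, hℓS, -, hnd⟩ :=
    Fermat.Agent.LR.lrv_exists_nonEis_prime W hΔ (Fact.out : p.Prime) hp2 hirr S
  refine ⟨ℓ, hℓ, hℓS, fun h => hnd ?_⟩
  rw [← Fermat.Agent.LR.lrv_int_mem_iff (IsLocalRing.maximalIdeal.isMaximal O)
    (Fact.out : p.Prime) hp, ← residue_eq_zero_iff]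
  push_cast
  rw [map_sub, map_add, map_natCast, map_one, map_intCast, h, sub_self]

/-- **the seam (nonEis)** of `M59/G5/Seams.lean`. -/
theorem m59ga_nonEis : m59g_NonEis_stmt := by
  intro p _ hp2 W hΔ _ hirr _ _ _ 𝒪 _ _ _ _ _ _ hp _ S
  exact m59ga_nonEis_of W hΔ p hp2 hirr 𝒪 hp S

end Fermat.Agent.M59
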