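/-
M59 / box [G5], seam 6 (split) (helper6; ruling #48, #5300).  Prefix `m59ga_`.

`m59ga_split : m59g_Split_stmt`: if every `X² - t X + d` with `t d : ℤ` splits in the residue
field `k` of `𝒪`, then every `charpoly ρ̄(σ)` splits in `k`, `ρ = ρ_W ⊗_{ℤ_p} 𝒪`.
Proof: `charpoly ρ̄(σ)` is the image of `X² - tr X + det` with `tr, det ∈ ℤ_p`, and every element
of `ℤ_p` is congruent modulo `p` to an integer (`PadicInt.appr_spec`).
-/
import Mathlib
import Fermat.Agent.M59.G5.Seams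
import Fermat.Agent.S58.Cmp

set_option autoImplicit false

open Polynomial IsLocalRing

namespace Fermat.Agent.M59

open Fermat.Agent.JT3 Fermat.Agent.S58

/-- the image in the residue field of `𝒪` of an element of `ℤ_p` is the image of an integer -/
theorem m59ga_residue_padic (p : ℕ) [Fact p.Prime] (𝒪 : Type) [CommRing 𝒪] [IsLocalRing 𝒪]
    [IsAdicComplete (maximalIdeal 𝒪) 𝒪] (hp : (p : 𝒪) ∈ maximalIdeal 𝒪) (a : ℤ_[p]) :
    ∃ n : ℤ, residue 𝒪 (cya_padicHom p 𝒪 hp a) = (n : ResidueField 𝒪) := by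
  have h := PadicInt.appr_spec 1 a
  rw [pow_one, Ideal.mem_span_singleton] at h
  obtain ⟨b, hb⟩ := h
  refine ⟨(a.appr 1 : ℕ), ?_⟩
  have ha : a = ((a.appr 1 : ℕ) : ℤ_[p]) + (p : ℤ_[p]) * b := by rw [← hb]; ring
  have h0 : residue 𝒪 ((p : ℕ) : 𝒪) = 0 := (residue_eq_zero_iff _).mpr hp
  calc residue 𝒪 (cya_padicHom p 𝒪 hp a)
      = residue 𝒪 (cya_padicHom p 𝒪 hp (((a.appr 1 : ℕ) : ℤ_[p]) + (p : ℤ_[p]) * b)) := by
        rw [← ha]
    _ = ((a.appr 1 : ℕ) : ResidueField 𝒪) := by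
        rw [map_add, map_mul, map_natCast, map_natCast, map_add, map_mul, map_natCast, h0,
          zero_mul, add_zero]
    _ = (((a.appr 1 : ℕ) : ℤ) : ResidueField 𝒪) := by rw [Int.cast_natCast]

/-- **the seam (split)** of `M59/G5/Seams.lean`. -/
theorem m59ga_split : m59g_Split_stmt := by
  intro p _ ρW 𝒪 _ _ _ _ hp hQ σ
  obtain ⟨t, ht⟩ := m59ga_residue_padic p 𝒪 hp (LinearMap.trace ℤ_[p] ρW.V (ρW.ρ σ))
  obtain ⟨d, hd⟩ := m59ga_residue_padic p 𝒪 hp (LinearMap.det (ρW.ρ σ))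
  obtain ⟨α, β, hαβ⟩ := hQ t d
  refine ⟨α, β, ?_⟩
  unfold m59g_rho
  rw [← hαβ, s58top_residual_charpoly, s58top_baseChange_charpoly,
    s58cm_charpoly_two ρW.finrank_eq]
  rw [Polynomial.map_add, Polynomial.map_sub, Polynomial.map_pow, Polynomial.map_mul,
    Polynomial.map_X, Polynomial.map_C, Polynomial.map_C, Polynomial.map_add, Polynomial.map_sub,
    Polynomial.map_pow, Polynomial.map_mul, Polynomial.map_X, Polynomial.map_C, Polynomial.map_C,
    ht, hd]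

end Fermat.Agent.M59
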