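import Mathlib
import Fermat.Agent.M59.G5.OrdQ.Main
import Fermat.Agent.M59.HTW.Wire2
import Fermat.Agent.M59.Top.EngZ

/-!
M59 / block [G5] (architect helper29): THE BLOCK IS CLOSED.  No `_stmt` hypothesis is left:

* seam 1 (coefficients)     `m59g_coeff2`   (helper29, M59/G5/Seams2.lean)
* seam 2 (away from `p`)    `m59ga_away`    (helper6,  M59/G5/Away.lean)
* seam 3 (flat at `p`)      `m59gs_flat2`   (helper23, M59/G5/Flat/Soft.lean, from helper29's
                                             `m59g_locOrd`, M59/G5/Flat/WInst.lean)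
* seam 4 (ordinary at `p`)  `m59gq_ord2`    (helper6,  M59/G5/OrdQ/Main.lean)
* seam 5 (Taylor–Wiles)     `m59tw_tw2z`    (helper23, M59/HTW/Wire2.lean)
* seams 6, 7                `m59ga_split`, `m59ga_nonEis` (helper6)

`m59g_G5z_closed : m59e_G5z_stmt` is the engine's seam [G5] (issue 2, with `ζ_p ∈ 𝒪`) and
`m59g_G5_closed : m59e_G5_stmt` the issue-1 form.
-/

set_option autoImplicit false

namespace Fermat.Agent.M59

/-- **[G5], issue 2, closed.** -/
theorem m59g_G5z_closed : m59e_G5z_stmt := m59tw_G5z_of_ord m59gq_ord2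

/-- **[G5], issue 1, closed.** -/
theorem m59g_G5_closed : m59e_G5_stmt := m59e_G5_of_G5z m59g_G5z_closed

end Fermat.Agent.M59
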